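import Fermat.Agent.LT.A2.H798.CpxSpec

/-!
# Row LT, tower A2, leaf A2.03.1.1.10.05 `CX798.RegC` (helper492)

OFF-MAIN.  `regC492 : CX798.RegC` VERBATIM (Spec `LT/A2/H798/CpxSpec.lean` of helper798, byte-identical
copy): for `c ≠ 0`, `ω₁ ≠ ω₂` the closed form `FC c ω₁ ω₂ g m` of the local Weil family at a
complex place is continuous and integrable on `ℂ × ℂ` for every admissible pair `(g, m)`, and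
jointly continuous on the admissible pairs.

Proof.  On an admissible pair `N = rowN g > 0` (`det g ≠ 0`) and `λ₁ λ₂ = det m ≠ 0`.
`‖FC g m ξ‖ = (‖λ₁ λ₂‖ / N) exp(-2π‖c‖ (‖λ₂ z₁‖² + ‖λ₁ z₂‖²) / N)`, and
`‖ω₁ - ω₂‖² (‖ξ₁‖² + ‖ξ₂‖²) ≤ 2 (1 + ‖ω₁‖² + ‖ω₂‖²) (‖z₁‖² + ‖z₂‖²)`, so `FC g m` is dominated by
a product of two Gaussians on `ℂ` (`integrable_exp_neg_mul_sq` on `ℝ`, twice).
The pointwise Gaussian bound `norm_FC_le492` has explicit constants (reusable for `DecayC`).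
-/

set_option autoImplicit false

open MeasureTheory
open scoped ComplexConjugate

noncomputable section

namespace Fermat.Agent.LT.A2.H492

open Fermat.Agent.LT.A2 Fermat.Agent.LT.A2.WX467 Fermat.Agent.LT.A2.CX798

/-! ## 1. Algebra of the admissible pairs -/

theorem rowN_nonneg492 (g : Matrix (Fin 2) (Fin 2) ℂ) : 0 ≤ rowN g := by
  unfold rowN
  positivity

theorem rowN_pos492 {g : Matrix (Fin 2) (Fin 2) ℂ} (h : g.det ≠ 0) : 0 < rowN g := by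
  rcases (rowN_nonneg492 g).lt_or_eq with h1 | h1
  · exact h1
  · exfalso
    unfold rowN at h1
    have ha : ‖g 1 0‖ ^ 2 = 0 := by nlinarith [sq_nonneg ‖g 1 0‖, sq_nonneg ‖g 1 1‖]
    have hb : ‖g 1 1‖ ^ 2 = 0 := by nlinarith [sq_nonneg ‖g 1 0‖, sq_nonneg ‖g 1 1‖]
    have h10 : g 1 0 = 0 := norm_eq_zero.mp ((pow_eq_zero_iff (two_ne_zero)).mp ha)
    have h11 : g 1 1 = 0 := norm_eq_zero.mp ((pow_eq_zero_iff (two_ne_zero)).mp hb)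
    apply h
    rw [Matrix.det_fin_two, h10, h11]
    ring

theorem lam_mul_lam492 (ω₁ ω₂ : ℂ) {m : Matrix (Fin 2) (Fin 2) ℂ}
    (hm : InTorL (ω₁ + ω₂) (ω₁ * ω₂) m) : lam ω₁ m * lam ω₂ m = m.det := by
  obtain ⟨a, b, rfl⟩ := hm
  simp [lam, torMat, Matrix.det_fin_two]
  ring

theorem adm_facts492 {ω₁ ω₂ : ℂ} {g m : Matrix (Fin 2) (Fin 2) ℂ}
    (h : AdmL (ω₁ + ω₂) (ω₁ * ω₂) g m) :
    0 < rowN g ∧ lam ω₁ m ≠ 0 ∧ lam ω₂ m ≠ 0 := by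
  obtain ⟨hT, hdet, hne⟩ := h
  have hl := lam_mul_lam492 ω₁ ω₂ hT
  refine ⟨rowN_pos492 (hdet ▸ hne), ?_, ?_⟩
  · intro h0
    apply hne
    rw [← hl, h0, zero_mul]
  · intro h0
    apply hne
    rw [← hl, h0, mul_zero]

/-! ## 2. The norm of the closed form and the Gaussian bound -/

/-- The real part of the exponent of `FC`. -/
def expo492 (c ω₁ ω₂ : ℂ) (g m : Matrix (Fin 2) (Fin 2) ℂ) (ξ : ℂ × ℂ) : ℝ :=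
  -(2 * Real.pi * ‖c‖ *
      (‖lam ω₂ m * (ξ.1 + ω₁ * ξ.2)‖ ^ 2 + ‖lam ω₁ m * (ξ.1 + ω₂ * ξ.2)‖ ^ 2) / rowN g)

theorem re_aux492 (x y : ℝ) :
    ((x : ℂ) + 4 * Real.pi * Complex.I * (y : ℂ)).re = x := by
  simp [Complex.add_re, Complex.mul_re]

theorem norm_FC492 (c ω₁ ω₂ : ℂ) (g m : Matrix (Fin 2) (Fin 2) ℂ) (ξ : ℂ × ℂ) :
    ‖FC c ω₁ ω₂ g m ξ‖
      = |‖lam ω₁ m * lam ω₂ m‖ / rowN g| * Real.exp (expo492 c ω₁ ω₂ g m ξ) := by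
  unfold FC expo492
  rw [norm_mul, Complex.norm_real, Real.norm_eq_abs, Complex.norm_exp, re_aux492]

theorem coord_bound492 (ω₁ ω₂ : ℂ) (ξ : ℂ × ℂ) :
    ‖ω₁ - ω₂‖ ^ 2 * (‖ξ.1‖ ^ 2 + ‖ξ.2‖ ^ 2)
      ≤ 2 * (1 + ‖ω₁‖ ^ 2 + ‖ω₂‖ ^ 2) *
          (‖ξ.1 + ω₁ * ξ.2‖ ^ 2 + ‖ξ.1 + ω₂ * ξ.2‖ ^ 2) := by
  have e2 : (ω₁ - ω₂) * ξ.2 = (ξ.1 + ω₁ * ξ.2) - (ξ.1 + ω₂ * ξ.2) := by ring
  have e1 : (ω₁ - ω₂) * ξ.1 = ω₁ * (ξ.1 + ω₂ * ξ.2) - ω₂ * (ξ.1 + ω₁ * ξ.2) := by ring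
  have n2 : ‖ω₁ - ω₂‖ * ‖ξ.2‖ ≤ ‖ξ.1 + ω₁ * ξ.2‖ + ‖ξ.1 + ω₂ * ξ.2‖ := by
    rw [← norm_mul, e2]
    exact norm_sub_le _ _
  have n1 : ‖ω₁ - ω₂‖ * ‖ξ.1‖ ≤ ‖ω₁‖ * ‖ξ.1 + ω₂ * ξ.2‖ + ‖ω₂‖ * ‖ξ.1 + ω₁ * ξ.2‖ := by
    rw [← norm_mul, e1]
    calc ‖ω₁ * (ξ.1 + ω₂ * ξ.2) - ω₂ * (ξ.1 + ω₁ * ξ.2)‖
        ≤ ‖ω₁ * (ξ.1 + ω₂ * ξ.2)‖ + ‖ω₂ * (ξ.1 + ω₁ * ξ.2)‖ := norm_sub_le _ _
      _ = ‖ω₁‖ * ‖ξ.1 + ω₂ * ξ.2‖ + ‖ω₂‖ * ‖ξ.1 + ω₁ * ξ.2‖ := by rw [norm_mul, norm_mul]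
  have hd : 0 ≤ ‖ω₁ - ω₂‖ := norm_nonneg _
  have hx1 : 0 ≤ ‖ξ.1‖ := norm_nonneg _
  have hx2 : 0 ≤ ‖ξ.2‖ := norm_nonneg _
  generalize ‖ξ.1 + ω₁ * ξ.2‖ = z₁ at n1 n2 ⊢
  generalize ‖ξ.1 + ω₂ * ξ.2‖ = z₂ at n1 n2 ⊢
  generalize ‖ω₁ - ω₂‖ = d at n1 n2 hd ⊢
  generalize ‖ω₁‖ = a₁ at n1 ⊢
  generalize ‖ω₂‖ = a₂ at n1 ⊢
  generalize ‖ξ.1‖ = x₁ at n1 hx1 ⊢
  generalize ‖ξ.2‖ = x₂ at n2 hx2 ⊢
  have s1 : (d * x₁) ^ 2 ≤ (a₁ * z₂ + a₂ * z₁) ^ 2 :=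
    pow_le_pow_left₀ (mul_nonneg hd hx1) n1 2
  have s2 : (d * x₂) ^ 2 ≤ (z₁ + z₂) ^ 2 := pow_le_pow_left₀ (mul_nonneg hd hx2) n2 2
  nlinarith [sq_nonneg (z₁ - z₂), sq_nonneg (a₁ * z₂ - a₂ * z₁),
    mul_nonneg (sq_nonneg a₁) (sq_nonneg z₁), mul_nonneg (sq_nonneg a₂) (sq_nonneg z₂)]

/-- **Pointwise Gaussian bound with explicit constants.**  If `rowN g > 0`, `λ₁, λ₂ ≠ 0` and
`ω₁ ≠ ω₂`, then with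
`δ = 2π‖c‖ · min(‖λ₁‖², ‖λ₂‖²) · ‖ω₁ - ω₂‖² / (rowN g · 2 (1 + ‖ω₁‖² + ‖ω₂‖²))`:
`Re(exponent) ≤ -δ (‖ξ₁‖² + ‖ξ₂‖²)`. -/
def delta492 (c ω₁ ω₂ : ℂ) (g m : Matrix (Fin 2) (Fin 2) ℂ) : ℝ :=
  2 * Real.pi * ‖c‖ / rowN g * min (‖lam ω₁ m‖ ^ 2) (‖lam ω₂ m‖ ^ 2) *
    (‖ω₁ - ω₂‖ ^ 2 / (2 * (1 + ‖ω₁‖ ^ 2 + ‖ω₂‖ ^ 2)))

theorem delta_pos492 {c ω₁ ω₂ : ℂ} (hc : c ≠ 0) (hω : ω₁ ≠ ω₂)
    {g m : Matrix (Fin 2) (Fin 2) ℂ} (hN : 0 < rowN g) (h1 : lam ω₁ m ≠ 0)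
    (h2 : lam ω₂ m ≠ 0) : 0 < delta492 c ω₁ ω₂ g m := by
  unfold delta492
  have hc' : 0 < ‖c‖ := norm_pos_iff.mpr hc
  have hd : 0 < ‖ω₁ - ω₂‖ := norm_pos_iff.mpr (sub_ne_zero.mpr hω)
  have hl1 : 0 < ‖lam ω₁ m‖ := norm_pos_iff.mpr h1
  have hl2 : 0 < ‖lam ω₂ m‖ := norm_pos_iff.mpr h2
  have hmin : 0 < min (‖lam ω₁ m‖ ^ 2) (‖lam ω₂ m‖ ^ 2) := lt_min (by positivity) (by positivity)
  positivity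

theorem expo_le492 (c ω₁ ω₂ : ℂ) {g m : Matrix (Fin 2) (Fin 2) ℂ} (hN : 0 < rowN g)
    (ξ : ℂ × ℂ) :
    expo492 c ω₁ ω₂ g m ξ ≤ -(delta492 c ω₁ ω₂ g m * (‖ξ.1‖ ^ 2 + ‖ξ.2‖ ^ 2)) := by
  unfold expo492 delta492
  rw [neg_le_neg_iff]
  have hC : (0 : ℝ) < 2 * (1 + ‖ω₁‖ ^ 2 + ‖ω₂‖ ^ 2) := by positivity
  have hP : 0 ≤ 2 * Real.pi * ‖c‖ / rowN g := by positivity
  have hb := coord_bound492 ω₁ ω₂ ξ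
  set Z : ℝ := ‖ξ.1 + ω₁ * ξ.2‖ ^ 2 + ‖ξ.1 + ω₂ * ξ.2‖ ^ 2 with hZ
  set ℓ : ℝ := min (‖lam ω₁ m‖ ^ 2) (‖lam ω₂ m‖ ^ 2) with hℓ
  have hℓ0 : 0 ≤ ℓ := le_min (by positivity) (by positivity)
  have hZ0 : 0 ≤ Z := by positivity
  -- the coordinate change
  have h1 : ‖ω₁ - ω₂‖ ^ 2 / (2 * (1 + ‖ω₁‖ ^ 2 + ‖ω₂‖ ^ 2)) * (‖ξ.1‖ ^ 2 + ‖ξ.2‖ ^ 2) ≤ Z := by
    rw [div_mul_eq_mul_div, div_le_iff₀ hC]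
    linarith
  -- the eigenvalues
  have h2 : ℓ * Z ≤ ‖lam ω₂ m * (ξ.1 + ω₁ * ξ.2)‖ ^ 2 + ‖lam ω₁ m * (ξ.1 + ω₂ * ξ.2)‖ ^ 2 := by
    rw [norm_mul, norm_mul, mul_pow, mul_pow, hZ, mul_add]
    have ha : ℓ * ‖ξ.1 + ω₁ * ξ.2‖ ^ 2 ≤ ‖lam ω₂ m‖ ^ 2 * ‖ξ.1 + ω₁ * ξ.2‖ ^ 2 :=
      mul_le_mul_of_nonneg_right (min_le_right _ _) (by positivity)
    have hb' : ℓ * ‖ξ.1 + ω₂ * ξ.2‖ ^ 2 ≤ ‖lam ω₁ m‖ ^ 2 * ‖ξ.1 + ω₂ * ξ.2‖ ^ 2 :=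
      mul_le_mul_of_nonneg_right (min_le_left _ _) (by positivity)
    linarith
  calc 2 * Real.pi * ‖c‖ / rowN g * ℓ *
          (‖ω₁ - ω₂‖ ^ 2 / (2 * (1 + ‖ω₁‖ ^ 2 + ‖ω₂‖ ^ 2))) * (‖ξ.1‖ ^ 2 + ‖ξ.2‖ ^ 2)
      = 2 * Real.pi * ‖c‖ / rowN g * (ℓ *
          (‖ω₁ - ω₂‖ ^ 2 / (2 * (1 + ‖ω₁‖ ^ 2 + ‖ω₂‖ ^ 2)) * (‖ξ.1‖ ^ 2 + ‖ξ.2‖ ^ 2))) := by
        ring
    _ ≤ 2 * Real.pi * ‖c‖ / rowN g * (ℓ * Z) :=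
        mul_le_mul_of_nonneg_left (mul_le_mul_of_nonneg_left h1 hℓ0) hP
    _ ≤ 2 * Real.pi * ‖c‖ / rowN g *
          (‖lam ω₂ m * (ξ.1 + ω₁ * ξ.2)‖ ^ 2 + ‖lam ω₁ m * (ξ.1 + ω₂ * ξ.2)‖ ^ 2) :=
        mul_le_mul_of_nonneg_left h2 hP
    _ = 2 * Real.pi * ‖c‖ *
          (‖lam ω₂ m * (ξ.1 + ω₁ * ξ.2)‖ ^ 2 + ‖lam ω₁ m * (ξ.1 + ω₂ * ξ.2)‖ ^ 2) / rowN g := by
        ring

theorem norm_FC_le492 (c ω₁ ω₂ : ℂ) {g m : Matrix (Fin 2) (Fin 2) ℂ} (hN : 0 < rowN g)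
    (ξ : ℂ × ℂ) :
    ‖FC c ω₁ ω₂ g m ξ‖ ≤ ‖lam ω₁ m * lam ω₂ m‖ / rowN g *
      Real.exp (-(delta492 c ω₁ ω₂ g m * (‖ξ.1‖ ^ 2 + ‖ξ.2‖ ^ 2))) := by
  rw [norm_FC492, abs_of_nonneg (by positivity)]
  exact mul_le_mul_of_nonneg_left (Real.exp_le_exp.mpr (expo_le492 c ω₁ ω₂ hN ξ)) (by positivity)

/-! ## 3. Continuity in `ξ` -/

theorem continuous_FC492 (c ω₁ ω₂ : ℂ) (g m : Matrix (Fin 2) (Fin 2) ℂ) :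
    Continuous (FC c ω₁ ω₂ g m) := by
  unfold FC
  fun_prop

/-! ## 4. Integrability -/

theorem integrable_gauss492 {δ : ℝ} (hδ : 0 < δ) :
    Integrable (fun z : ℂ => Real.exp (-(δ * ‖z‖ ^ 2))) := by
  have h1 : Integrable (fun p : ℝ × ℝ => Real.exp (-δ * p.1 ^ 2) * Real.exp (-δ * p.2 ^ 2))
      ((volume : Measure ℝ).prod volume) :=
    Integrable.mul_prod (integrable_exp_neg_mul_sq hδ) (integrable_exp_neg_mul_sq hδ)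
  have h2 := (Complex.volume_preserving_equiv_real_prod.integrable_comp_emb
    Complex.measurableEquivRealProd.measurableEmbedding).mpr h1
  refine h2.congr (Filter.Eventually.of_forall fun z => ?_)
  simp only [Function.comp_apply, Complex.measurableEquivRealProd_apply]
  rw [← Real.exp_add]
  congr 1
  rw [Complex.sq_norm, Complex.normSq_apply]
  ring

theorem integrable_FC492 {c ω₁ ω₂ : ℂ} (hc : c ≠ 0) (hω : ω₁ ≠ ω₂)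
    {g m : Matrix (Fin 2) (Fin 2) ℂ} (h : AdmL (ω₁ + ω₂) (ω₁ * ω₂) g m) :
    IntegrableL volC (FC c ω₁ ω₂ g m) := by
  obtain ⟨hN, h1, h2⟩ := adm_facts492 h
  have hδ := delta_pos492 hc hω hN h1 h2
  show Integrable (FC c ω₁ ω₂ g m) ((volume : Measure ℂ).prod (volume : Measure ℂ))
  have hG := integrable_gauss492 hδ
  have hdom : Integrable (fun ξ : ℂ × ℂ => ‖lam ω₁ m * lam ω₂ m‖ / rowN g *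
      (Real.exp (-(delta492 c ω₁ ω₂ g m * ‖ξ.1‖ ^ 2)) *
        Real.exp (-(delta492 c ω₁ ω₂ g m * ‖ξ.2‖ ^ 2))))
      ((volume : Measure ℂ).prod (volume : Measure ℂ)) :=
    (Integrable.mul_prod hG hG).const_mul _
  refine hdom.mono' (continuous_FC492 c ω₁ ω₂ g m).aestronglyMeasurable
    (Filter.Eventually.of_forall fun ξ => ?_)
  refine (norm_FC_le492 c ω₁ ω₂ hN ξ).trans (le_of_eq ?_)
  rw [← Real.exp_add]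
  congr 2
  ring

/-! ## 5. Joint continuity on the admissible pairs -/

theorem continuousOn_FC492 (c ω₁ ω₂ : ℂ) :
    ContinuousOn
      (fun q : (Matrix (Fin 2) (Fin 2) ℂ × Matrix (Fin 2) (Fin 2) ℂ) × (ℂ × ℂ) =>
        FC c ω₁ ω₂ q.1.1 q.1.2 q.2)
      {q | AdmL (ω₁ + ω₂) (ω₁ * ω₂) q.1.1 q.1.2} := by
  have hsub : {q : (Matrix (Fin 2) (Fin 2) ℂ × Matrix (Fin 2) (Fin 2) ℂ) × (ℂ × ℂ) |
      AdmL (ω₁ + ω₂) (ω₁ * ω₂) q.1.1 q.1.2} ⊆ {q | rowN q.1.1 ≠ 0} :=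
    fun q hq => (adm_facts492 hq).1.ne'
  refine ContinuousOn.mono ?_ hsub
  have hN : Continuous (fun q : (Matrix (Fin 2) (Fin 2) ℂ × Matrix (Fin 2) (Fin 2) ℂ) × (ℂ × ℂ)
      => rowN q.1.1) := by
    unfold rowN
    fun_prop
  have hB : Continuous (fun q : (Matrix (Fin 2) (Fin 2) ℂ × Matrix (Fin 2) (Fin 2) ℂ) × (ℂ × ℂ)
      => rowB q.1.1) := by
    unfold rowB
    fun_prop
  have hL : ∀ ω : ℂ, Continuous (fun q : (Matrix (Fin 2) (Fin 2) ℂ × Matrix (Fin 2) (Fin 2) ℂ) ×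
      (ℂ × ℂ) => lam ω q.1.2) := by
    intro ω
    unfold lam
    fun_prop
  have hL1 := hL ω₁
  have hL2 := hL ω₂
  have hz : ∀ ω : ℂ, Continuous (fun q : (Matrix (Fin 2) (Fin 2) ℂ × Matrix (Fin 2) (Fin 2) ℂ) ×
      (ℂ × ℂ) => q.2.1 + ω * q.2.2) := by
    intro ω
    fun_prop
  have hA : Continuous (fun q : (Matrix (Fin 2) (Fin 2) ℂ × Matrix (Fin 2) (Fin 2) ℂ) ×
      (ℂ × ℂ) => ‖lam ω₁ q.1.2 * lam ω₂ q.1.2‖) := (hL1.mul hL2).norm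
  have hE : Continuous (fun q : (Matrix (Fin 2) (Fin 2) ℂ × Matrix (Fin 2) (Fin 2) ℂ) ×
      (ℂ × ℂ) => 2 * Real.pi * ‖c‖ *
        (‖lam ω₂ q.1.2 * (q.2.1 + ω₁ * q.2.2)‖ ^ 2 + ‖lam ω₁ q.1.2 * (q.2.1 + ω₂ * q.2.2)‖ ^ 2)) :=
    continuous_const.mul
      (((hL2.mul (hz ω₁)).norm.pow 2).add ((hL1.mul (hz ω₂)).norm.pow 2))
  have hR : Continuous (fun q : (Matrix (Fin 2) (Fin 2) ℂ × Matrix (Fin 2) (Fin 2) ℂ) ×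
      (ℂ × ℂ) => (c * rowB q.1.1 * ((q.2.1 + ω₁ * q.2.2) * (q.2.1 + ω₂ * q.2.2))).re) :=
    Complex.continuous_re.comp ((continuous_const.mul hB).mul ((hz ω₁).mul (hz ω₂)))
  have hne : ∀ q ∈ {q : (Matrix (Fin 2) (Fin 2) ℂ × Matrix (Fin 2) (Fin 2) ℂ) × (ℂ × ℂ) |
      rowN q.1.1 ≠ 0}, rowN q.1.1 ≠ 0 := fun q hq => hq
  have c1 := Complex.continuous_ofReal.comp_continuousOn
    (hA.continuousOn.div hN.continuousOn hne)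
  have c2 := Complex.continuous_ofReal.comp_continuousOn
    ((hE.continuousOn.div hN.continuousOn hne).neg)
  have c3 := Complex.continuous_ofReal.comp_continuousOn
    (hR.continuousOn.div hN.continuousOn hne)
  have c4 : ContinuousOn (fun _ : (Matrix (Fin 2) (Fin 2) ℂ × Matrix (Fin 2) (Fin 2) ℂ) ×
      (ℂ × ℂ) => 4 * (Real.pi : ℂ) * Complex.I) {q | rowN q.1.1 ≠ 0} := continuousOn_const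
  exact (c1.mul (Complex.continuous_exp.comp_continuousOn (c2.add (c4.mul c3)))).congr
    (fun q _ => rfl)

/-! ## 6. The leaf -/

/-- **Leaf A2.03.1.1.10.05** `CX798.RegC`, VERBATIM. -/
theorem regC492 : CX798.RegC := by
  intro c ω₁ ω₂ hc hω
  exact ⟨fun g m h => ⟨continuous_FC492 c ω₁ ω₂ g m, integrable_FC492 hc hω h⟩,
    continuousOn_FC492 c ω₁ ω₂⟩

end Fermat.Agent.LT.A2.H492

end
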